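/-
S24 package A9 (LocalSum), abstract combinatorial core (helper69).

A relation `Rel : P → X → Prop` between a type `P` ("places over a center") and a finite type `X`
("embeddings") such that every `x` is related to exactly one `v`, every `v` to some `x`, and
the `x` related to a given `v` form exactly one orbit of a permutation `ρ`.  Then `P` is
finite, in bijection with the `ρ`-orbits, and sums over `X` can be computed fibrewise.
-/
import Mathlib

set_option autoImplicit false
set_option linter.unusedSectionVars false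

namespace Fermat.Agent.S24.H69

open Function

section Perm

variable {X : Type*} [Finite X] (ρ : Equiv.Perm X)

/-- In a finite type, integer powers of a permutation are natural powers. -/
theorem exists_nat_pow_eq_zpow (n : ℤ) : ∃ k : ℕ, ρ ^ k = ρ ^ n := by
  have hpos : 0 < orderOf ρ := orderOf_pos ρ
  refine ⟨(n % (orderOf ρ : ℤ)).toNat, ?_⟩
  have h0 : 0 ≤ n % (orderOf ρ : ℤ) := Int.emod_nonneg _ (by exact_mod_cast hpos.ne')
  rw [← zpow_natCast, Int.toNat_of_nonneg h0, zpow_mod_orderOf]

theorem mem_orbit_zpowers_iff (x y : X) :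
    y ∈ MulAction.orbit (Subgroup.zpowers ρ) x ↔ ∃ k : ℕ, (ρ ^ k) x = y := by
  constructor
  · rintro ⟨⟨g, hg⟩, rfl⟩
    obtain ⟨n, rfl⟩ := Subgroup.mem_zpowers_iff.mp hg
    obtain ⟨k, hk⟩ := exists_nat_pow_eq_zpow ρ n
    exact ⟨k, by rw [hk]; rfl⟩
  · rintro ⟨k, rfl⟩
    exact ⟨⟨ρ ^ k, Subgroup.pow_mem _ (Subgroup.mem_zpowers ρ) k⟩, rfl⟩

/-- The orbit of `x` under `ρ` has `minimalPeriod ρ x` elements. -/
theorem card_orbit_eq_minimalPeriod (x : X) :
    Nat.card {y : X // ∃ k : ℕ, (ρ ^ k) x = y} = minimalPeriod ρ x := by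
  classical
  have hset : {y : X | ∃ k : ℕ, (ρ ^ k) x = y} = MulAction.orbit (Subgroup.zpowers ρ) x := by
    ext y
    exact (mem_orbit_zpowers_iff ρ x y).symm
  have h1 : Nat.card {y : X // ∃ k : ℕ, (ρ ^ k) x = y}
      = Nat.card (MulAction.orbit (Subgroup.zpowers ρ) x) := by
    show Nat.card ↥{y : X | ∃ k : ℕ, (ρ ^ k) x = y} = _
    rw [hset]
  rw [h1]
  have : Fintype (MulAction.orbit (Subgroup.zpowers ρ) x) := Fintype.ofFinite _
  rw [Nat.card_eq_fintype_card, ← MulAction.minimalPeriod_eq_card]
  rfl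

end Perm

section Core

variable {P X : Type*} [Fintype X] (Rel : P → X → Prop) (ρ : Equiv.Perm X)

/-- The hypotheses of the abstract core. -/
structure IsOrbitRel : Prop where
  exists_right : ∀ v, ∃ x, Rel v x
  exists_left : ∀ x, ∃ v, Rel v x
  unique : ∀ v v' x, Rel v x → Rel v' x → v = v'
  orbit : ∀ v x, Rel v x → ∀ y, (Rel v y ↔ ∃ k : ℕ, (ρ ^ k) x = y)

variable {Rel ρ}

namespace IsOrbitRel

variable (h : IsOrbitRel Rel ρ)

/-- The place attached to an embedding. -/
noncomputable def pl (x : X) : P := (h.exists_left x).choose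

theorem rel_pl (x : X) : Rel (h.pl x) x := (h.exists_left x).choose_spec

theorem rel_iff_pl_eq (v : P) (x : X) : Rel v x ↔ h.pl x = v :=
  ⟨fun hv => h.unique _ _ x (h.rel_pl x) hv, fun hv => hv ▸ h.rel_pl x⟩

theorem pl_surjective : Surjective h.pl := fun v => by
  obtain ⟨x, hx⟩ := h.exists_right v
  exact ⟨x, (h.rel_iff_pl_eq v x).mp hx⟩

include h in
theorem finite : Finite P := Finite.of_surjective h.pl h.pl_surjective

theorem pl_eq_iff (x y : X) : h.pl x = h.pl y ↔ ∃ k : ℕ, (ρ ^ k) x = y := by
  rw [← h.orbit (h.pl x) x (h.rel_pl x) y, h.rel_iff_pl_eq, eq_comm]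

include h in
/-- The number of places is the number of orbits. -/
theorem card_eq : Nat.card P = Nat.card (MulAction.orbitRel.Quotient (Subgroup.zpowers ρ) X) := by
  classical
  symm
  have hwd : ∀ a b : X, (MulAction.orbitRel (Subgroup.zpowers ρ) X) a b → h.pl a = h.pl b := by
    intro a b hab
    rw [MulAction.orbitRel_apply] at hab
    rw [eq_comm, h.pl_eq_iff]
    exact (mem_orbit_zpowers_iff ρ b a).mp hab
  refine Nat.card_eq_of_bijective (Quotient.lift h.pl hwd) ⟨?_, ?_⟩
  · intro a b
    induction a using Quotient.inductionOn with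
    | _ a =>
    induction b using Quotient.inductionOn with
    | _ b =>
    intro hab
    simp only [Quotient.lift_mk] at hab
    apply Quotient.sound
    show (MulAction.orbitRel (Subgroup.zpowers ρ) X) a b
    rw [MulAction.orbitRel_apply]
    rw [eq_comm, h.pl_eq_iff] at hab
    exact (mem_orbit_zpowers_iff ρ b a).mpr hab
  · intro v
    obtain ⟨x, hx⟩ := h.pl_surjective v
    exact ⟨Quotient.mk _ x, by simpa using hx⟩

/-- The fibre of `pl` over `v` has `minimalPeriod ρ x` elements, for any `x` related to `v`. -/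
theorem card_fiber [DecidableEq P] (v : P) (x : X) (hx : Rel v x) :
    (Finset.univ.filter fun y => h.pl y = v).card = minimalPeriod ρ x := by
  classical
  rw [← card_orbit_eq_minimalPeriod ρ x, Nat.card_eq_fintype_card, Fintype.card_subtype]
  congr 1
  ext y
  simp only [Finset.mem_filter, Finset.mem_univ, true_and]
  rw [← h.rel_iff_pl_eq, h.orbit v x hx y]

include h in
/-- Fibrewise summation: if `o x * e v = s * w v` whenever `Rel v x`, where `e v > 0` is the size
of the fibre over `v`, then `∑ x, o x = s * ∑ v, w v`. -/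
theorem sum_eq [Fintype P] (e : P → ℤ) (he : ∀ v x, Rel v x → e v = (minimalPeriod ρ x : ℤ))
    (hpos : ∀ v, 0 < e v) (o : X → ℤ) (w : P → ℤ) (s : ℤ)
    (hrel : ∀ v x, Rel v x → o x * e v = s * w v) :
    ∑ x, o x = s * ∑ v, w v := by
  classical
  rw [← Finset.sum_fiberwise Finset.univ h.pl o, Finset.mul_sum]
  refine Finset.sum_congr rfl fun v _ => ?_
  obtain ⟨x, hx⟩ := h.exists_right v
  have hcard := h.card_fiber v x hx
  have hev := he v x hx
  have h1 : (∑ y ∈ Finset.univ.filter (fun y => h.pl y = v), o y) * e v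
      = (s * w v) * e v := by
    rw [Finset.sum_mul]
    rw [Finset.sum_congr rfl (fun y hy => hrel v y ((h.rel_iff_pl_eq v y).mpr
      (Finset.mem_filter.mp hy).2))]
    rw [Finset.sum_const, nsmul_eq_mul, hcard, ← hev]
    ring
  exact mul_right_cancel₀ (hpos v).ne' h1

include h in
/-- The fibre sizes add up to the cardinality of `X`. -/
theorem sum_e_eq [Fintype P] (e : P → ℤ) (he : ∀ v x, Rel v x → e v = (minimalPeriod ρ x : ℤ)) :
    ∑ v, e v = (Fintype.card X : ℤ) := by
  classical
  have h1 : ∀ v, e v = ((Finset.univ.filter fun y => h.pl y = v).card : ℤ) := by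
    intro v
    obtain ⟨x, hx⟩ := h.exists_right v
    rw [h.card_fiber v x hx, he v x hx]
  rw [Finset.sum_congr rfl (fun v _ => h1 v), ← Nat.cast_sum]
  congr 1
  rw [← Finset.card_univ (α := X)]
  exact (Finset.card_eq_sum_card_fiberwise (fun x _ => Finset.mem_univ (h.pl x))).symm

end IsOrbitRel

end Core

end Fermat.Agent.S24.H69
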