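/-
S24 package A9 (LocalSum), helper69: the places over a center are in bijection with the
`ρ`-orbits; counting consequences.  Everything is derived from the STATEMENTS of the upstream
packages A4 (Newton), A5 (PlaceOf), A7 (Fiber), bundled as the hypothesis `Upstream L`, so that
this file does not depend on when those packages land.
-/
import Fermat.Agent.S24.Defs
import Fermat.Agent.S24.H69.OrbitCore

set_option autoImplicit false

open AlgebraicCurve

noncomputable section

namespace Fermat.Agent.S24.H69

variable {K F X : Type*} [Field K] [Field F] [Algebra K F] [Fintype X]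
  {R : Subalgebra K F} {π : F}

/-- The statements of A4 (Newton), A5 (PlaceOf), A7 (Fiber) for the local data `L`. -/
structure Upstream (L : LocalData K F X R π) : Prop where
  exists_rel_of_place : ∀ v : Place K F, 0 < v.ord π → ∃ x, L.Rel v x
  exists_place_rel : ∀ x, ∃ v : Place K F, 0 < v.ord π ∧ L.Rel v x
  rel_unique : ∀ (v v' : Place K F), 0 < v.ord π → 0 < v'.ord π → ∀ x : X,
    L.Rel v x → L.Rel v' x → v = v'
  rel_iff_orbit : ∀ v : Place K F, 0 < v.ord π → ∀ x : X, L.Rel v x →
    ∀ y, (L.Rel v y ↔ ∃ k : ℕ, (L.ρ ^ k) x = y)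
  ord_π_eq_minimalPeriod : ∀ v : Place K F, 0 < v.ord π → ∀ x : X, L.Rel v x →
    v.ord π = (Function.minimalPeriod L.ρ x : ℤ)

/-- The order of a finite product of nonzero Laurent series. -/
theorem order_prod' {ι : Type*} (s : Finset ι) (f : ι → LaurentSeries ℂ)
    (hf : ∀ i ∈ s, f i ≠ 0) : (∏ i ∈ s, f i).order = ∑ i ∈ s, (f i).order := by
  classical
  induction s using Finset.induction_on with
  | empty => simp
  | insert a s ha ih =>
    have hfa : f a ≠ 0 := hf a (Finset.mem_insert_self a s)
    have hfs : ∀ i ∈ s, f i ≠ 0 := fun i hi => hf i (Finset.mem_insert_of_mem hi)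
    have hprod : ∏ i ∈ s, f i ≠ 0 := Finset.prod_ne_zero_iff.mpr hfs
    rw [Finset.prod_insert ha, Finset.sum_insert ha, HahnSeries.order_mul hfa hprod, ih hfs]

namespace Upstream

variable {L : LocalData K F X R π} (U : Upstream L)

/-- The relation restricted to the places over the center. -/
def Rel' (L : LocalData K F X R π) (v : {v : Place K F // 0 < v.ord π}) (x : X) : Prop :=
  L.Rel v.1 x

include U in
theorem isOrbitRel : IsOrbitRel (Rel' L) L.ρ where
  exists_right v := U.exists_rel_of_place v.1 v.2
  exists_left x := by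
    obtain ⟨v, hv, hx⟩ := U.exists_place_rel x
    exact ⟨⟨v, hv⟩, hx⟩
  unique v v' x hx hx' := Subtype.ext (U.rel_unique v.1 v'.1 v.2 v'.2 x hx hx')
  orbit v x hx y := U.rel_iff_orbit v.1 v.2 x hx y

include U in
theorem finite_places : {v : Place K F | 0 < v.ord π}.Finite := by
  have : Finite {v : Place K F // 0 < v.ord π} := U.isOrbitRel.finite
  exact Set.finite_coe_iff.mp this

include U in
theorem card_places (hfin : {v : Place K F | 0 < v.ord π}.Finite) :
    hfin.toFinset.card = orbCount L.ρ := by
  classical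
  have hc := U.isOrbitRel.card_eq
  rw [orbCount, ← hc]
  have : Fintype {v : Place K F // 0 < v.ord π} := hfin.fintype
  rw [Nat.card_eq_fintype_card, ← Finset.card_univ]
  refine Finset.card_bij (fun v hv => ⟨v, by simpa using hv⟩) (fun _ _ => Finset.mem_univ _)
    (fun _ _ _ _ h => by simpa using h) (fun v _ => ⟨v.1, by simp, rfl⟩)

include U in
theorem sum_ord_π (hfin : {v : Place K F | 0 < v.ord π}.Finite) :
    ∑ v ∈ hfin.toFinset, v.ord π = (Fintype.card X : ℤ) := by
  classical
  have : Fintype {v : Place K F // 0 < v.ord π} := hfin.fintype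
  have h1 := U.isOrbitRel.sum_e_eq (fun v : {v : Place K F // 0 < v.ord π} => v.1.ord π)
    (fun v x hx => U.ord_π_eq_minimalPeriod v.1 v.2 x hx)
  rw [← h1]
  exact Finset.sum_subtype hfin.toFinset (fun v => by simp) (fun v => v.ord π)

include U in
theorem sum_ord (hfin : {v : Place K F | 0 < v.ord π}.Finite) {f : F} (hf : f ≠ 0) :
    (L.s : ℤ) * ∑ v ∈ hfin.toFinset, v.ord f = (∏ y, L.φ y f).order := by
  classical
  have : Fintype {v : Place K F // 0 < v.ord π} := hfin.fintype
  have h1 := U.isOrbitRel.sum_eq (fun v : {v : Place K F // 0 < v.ord π} => v.1.ord π)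
    (fun v x hx => U.ord_π_eq_minimalPeriod v.1 v.2 x hx) (fun v => v.2)
    (fun x => (L.φ x f).order) (fun v => v.1.ord f) (L.s : ℤ) (fun v x hx => hx f)
  rw [order_prod' Finset.univ (fun y => L.φ y f)
    (fun y _ => (map_ne_zero (L.φ y)).mpr hf), h1]
  congr 1
  exact Finset.sum_subtype hfin.toFinset (fun v => by simp) (fun v => v.ord f)

include U in
/-- If the monodromy is trivial, the center is unramified. -/
theorem ord_π_eq_one_of_ρ_eq_one (hρ : L.ρ = 1) (v : Place K F) (hv : 0 < v.ord π) :
    v.ord π = 1 := by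
  obtain ⟨x, hx⟩ := U.exists_rel_of_place v hv
  rw [U.ord_π_eq_minimalPeriod v hv x hx, hρ]
  have : Function.minimalPeriod (⇑(1 : Equiv.Perm X)) x = 1 :=
    Function.minimalPeriod_eq_one_iff_isFixedPt.mpr (by simp [Function.IsFixedPt])
  rw [this]
  rfl

end Upstream

end Fermat.Agent.S24.H69
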